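import Fermat.Agent.FermatTate.Tuples
import Fermat.Agent.JacobiSatoTate.Character

/-!
# The characters of the tuples

For nonzero residues `a j` of sum zero the product over `j` of the binary Jacobi characters of
`a j` and the partial sum before it (`1` for a zero partial sum, the norm where the sum returns to
zero) is an algebraic character of weight `m` with exponents `m - ∑ (a i s mod l) / l`.
-/

set_option autoImplicit false
set_option linter.unusedSectionVars false

noncomputable section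

open NumberField IsDedekindDomain Ideal
open FA.PowerReciprocity FA.IwasawaStructure FA.FermatHW
open FA.AlgHecke (IsAlgChar IsPure IsNormPower typeVal)
open scoped Classical ComplexConjugate

namespace FA.FermatTate

universe u

variable {l : ℕ} [hl : Fact l.Prime] {m : ℕ}

/-- The entries, `0` outside. -/
def entry (a : Fin m → ZMod l) (j : ℕ) : ZMod l := if h : j < m then a ⟨j, h⟩ else 0

theorem entry_val (a : Fin m → ZMod l) (i : Fin m) : entry a i = a i := dif_pos i.isLt

/-- The partial sums. -/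
def psum (a : Fin m → ZMod l) (j : ℕ) : ZMod l := ∑ i ∈ Finset.range j, entry a i

theorem psum_self {a : Fin m → ZMod l} (ha : ∑ i, a i = 0) : psum a m = 0 := by
  rw [psum, Finset.sum_range, Finset.sum_congr rfl fun i _ => entry_val a i, ha]

/-- **Telescoping.** -/
theorem telescope {M : Type*} [CommMonoid M] {a : Fin m → ZMod l} (ha : ∀ i, a i ≠ 0)
    (P : ZMod l → ZMod l → M) (G : ZMod l → M) (h0 : G 0 = 1)
    (h : ∀ x y, x ≠ 0 → P x y * G (x + y) = G x * G y) (hsum : ∑ i, a i = 0) :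
    ∏ j : Fin m, P (a j) (psum a j) = ∏ j, G (a j) := by
  have key : ∀ n ≤ m, (∏ j ∈ Finset.range n, P (entry a j) (psum a j)) * G (psum a n) =
      ∏ j ∈ Finset.range n, G (entry a j) := by
    intro n hn
    induction n with
    | zero => simp [psum, h0]
    | succ n ih =>
      have hne : entry a n ≠ 0 := by rw [entry, dif_pos (show n < m from hn)]; exact ha _
      rw [Finset.prod_range_succ, Finset.prod_range_succ, ← ih (Nat.le_of_succ_le hn), mul_assoc,
        show psum a (n + 1) = entry a n + psum a n by rw [psum, Finset.sum_range_succ, add_comm]; rfl,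
        h _ _ hne, mul_assoc, mul_comm (G (psum a n))]
  have e := key m le_rfl
  rw [psum_self hsum, h0, mul_one, Finset.prod_range, Finset.prod_range] at e
  simpa only [entry_val] using e

variable {K : Type u} [Field K] [NumberField K] [IsCyclotomicExtension {l} ℚ K]

local notation "zl" => IsPrimitiveRoot.toInteger (IsCyclotomicExtension.zeta_spec l ℚ K)

/-- The indicator of the ideals prime to `l`. -/
def oneChar (K : Type u) [Field K] [NumberField K] (l : ℕ) :
    Ideal (𝓞 K) →* ℂ where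
  toFun I := if l.Coprime (absNorm I) then 1 else 0
  map_one' := by simp
  map_mul' I J := by
    by_cases h : l.Coprime (absNorm I) ∧ l.Coprime (absNorm J)
    · rw [map_mul, if_pos h.1, if_pos h.2, if_pos (Nat.coprime_mul_iff_right.2 h)]
      simp
    · rw [map_mul, if_neg fun e => h (Nat.coprime_mul_iff_right.1 e)]
      rcases not_and_or.1 h with e | e
      · rw [if_neg e, zero_mul]
      · rw [if_neg e, mul_zero]

/-- The norm on the ideals prime to `l`. -/
def normChar (K : Type u) [Field K] [NumberField K] (l : ℕ) :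
    Ideal (𝓞 K) →* ℂ where
  toFun I := if l.Coprime (absNorm I) then ((absNorm I : ℕ) : ℂ) else 0
  map_one' := by simp
  map_mul' I J := by
    by_cases h : l.Coprime (absNorm I) ∧ l.Coprime (absNorm J)
    · rw [map_mul, if_pos h.1, if_pos h.2, if_pos (Nat.coprime_mul_iff_right.2 h)]
      simp
    · rw [map_mul, if_neg fun e => h (Nat.coprime_mul_iff_right.1 e)]
      rcases not_and_or.1 h with e | e
      · rw [if_neg e, zero_mul]
      · rw [if_neg e, mul_zero]

theorem oneChar_apply (I : Ideal (𝓞 K)) :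
    oneChar K l I = if l.Coprime (absNorm I) then 1 else 0 := rfl

theorem normChar_apply (I : Ideal (𝓞 K)) :
    normChar K l I = if l.Coprime (absNorm I) then ((absNorm I : ℕ) : ℂ) else 0 := rfl

theorem isAlgChar_oneChar (hl2 : l ≠ 2) :
    IsAlgChar (Ideal.span {(zl - 1) ^ 2}) (fun _ : K →+* ℂ => 0) (oneChar K l) := by
  refine ⟨?_, fun I hI => ?_, fun x hx => ?_⟩
  · rw [ne_eq, Ideal.span_singleton_eq_bot]
    exact pow_ne_zero 2 (prime_lambda (l := l) (K := K)).ne_zero
  · rw [oneChar_apply, ← coprime_iff_sup hl2]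
    split_ifs with h
    · exact iff_of_true one_ne_zero h
    · exact iff_of_false (not_not.2 rfl) h
  · have htop : Ideal.span {x} ⊔ Ideal.span {(zl - 1) ^ 2} = ⊤ := by
      have h := Submodule.add_mem_sup (Ideal.mem_span_singleton_self x) (neg_mem hx.2.1)
      rw [show x + -(x - 1) = 1 by ring] at h
      exact (Ideal.eq_top_iff_one _).2 h
    rw [oneChar_apply, if_pos ((coprime_iff_sup hl2).2 htop)]
    simp [typeVal]

theorem isAlgChar_normChar (hl2 : l ≠ 2) :
    IsAlgChar (Ideal.span {(zl - 1) ^ 2}) (fun _ : K →+* ℂ => 1) (normChar K l) := by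
  refine ⟨(isAlgChar_oneChar hl2).ne_bot, fun I hI => ?_, fun x hx => ?_⟩
  · rw [normChar_apply, ← coprime_iff_sup hl2]
    split_ifs with h
    · exact iff_of_true (Nat.cast_ne_zero.2 (absNorm_eq_zero_iff.not.2 hI)) h
    · exact iff_of_false (not_not.2 rfl) h
  · have h1 := (isAlgChar_oneChar hl2).ray x hx
    rw [oneChar_apply] at h1
    have hcop : l.Coprime (absNorm (Ideal.span {x})) := by
      by_contra hne
      rw [if_neg hne] at h1
      exact FA.AlgHecke.typeVal_ne_zero _ (RingOfIntegers.coe_ne_zero_iff.mpr hx.1) h1.symm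
    rw [normChar_apply, if_pos hcop, typeVal]
    simp only [zpow_one]
    obtain ⟨hx0, -, hxp⟩ := hx
    have hpos : 0 < Algebra.norm ℤ x := by
      have h := FA.ArtinRec.norm_pos_of_totallyPositive (K := ℚ)
        (RingOfIntegers.coe_ne_zero_iff.mpr hx0) hxp (algebraMap ℚ ℝ)
      rw [← Algebra.coe_norm_int, map_intCast, Int.cast_pos] at h
      exact h
    have hprod : algebraMap ℚ ℂ (Algebra.norm ℚ (x : K)) = ∏ σ : K →+* ℂ, σ (x : K) :=
      (Algebra.norm_eq_prod_embeddings ℚ ℂ (x : K)).trans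
        (Fintype.prod_equiv (RingHom.equivRatAlgHom (R := K) (S := ℂ)).symm _ _ fun σ => rfl)
    rw [← hprod, ← Algebra.coe_norm_int, map_intCast, Ideal.absNorm_span_singleton,
      ← Int.cast_natCast, Int.natAbs_of_nonneg hpos.le]

/-- One step. -/
def pairChar (φ : K →+* ℂ) (l : ℕ) [Fact l.Prime] [IsCyclotomicExtension {l} ℚ K] (x y : ZMod l) :
    Ideal (𝓞 K) →* ℂ :=
  if y = 0 then oneChar K l else if x + y = 0 then normChar K l else jacobiChar φ l x.val y.val

/-- Its type. -/
def pairType (φ : K →+* ℂ) (l : ℕ) [Fact l.Prime] [IsCyclotomicExtension {l} ℚ K] (x y : ZMod l)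
    (σ : K →+* ℂ) : ℤ :=
  if y = 0 then 0 else if x + y = 0 then 1 else jacobiType φ l x.val y.val σ

theorem not_dvd_val {x : ZMod l} (hx : x ≠ 0) : ¬ l ∣ x.val := fun e =>
  hx ((ZMod.val_eq_zero x).1 (Nat.eq_zero_of_dvd_of_lt e (ZMod.val_lt x)))

theorem not_dvd_val_add {x y : ZMod l} (hxy : x + y ≠ 0) : ¬ l ∣ x.val + y.val := fun e => hxy (by
  have h := (ZMod.natCast_eq_zero_iff (x.val + y.val) l).2 e
  simpa using h)

theorem isAlgChar_pairChar (hl2 : l ≠ 2) (φ : K →+* ℂ) {x : ZMod l} (hx : x ≠ 0) (y : ZMod l) :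
    IsAlgChar (Ideal.span {(zl - 1) ^ 2}) (pairType φ l x y) (pairChar φ l x y) := by
  unfold pairType pairChar
  split_ifs with hy hxy
  · exact isAlgChar_oneChar hl2
  · exact isAlgChar_normChar hl2
  · exact isAlgChar_jacobiChar hl2 (not_dvd_val hx) (not_dvd_val hy) (not_dvd_val_add hxy)

/-- The character of a tuple. -/
def tupleChar (φ : K →+* ℂ) (l : ℕ) [Fact l.Prime] [IsCyclotomicExtension {l} ℚ K]
    (a : Fin m → ZMod l) : Ideal (𝓞 K) →* ℂ :=
  oneChar K l * ∏ j : Fin m, pairChar φ l (a j) (psum a j)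

theorem tupleChar_apply (φ : K →+* ℂ) (a : Fin m → ZMod l) (I : Ideal (𝓞 K)) :
    tupleChar φ l a I = oneChar K l I * ∏ j : Fin m, pairChar φ l (a j) (psum a j) I := by
  rw [tupleChar, MonoidHom.mul_apply, MonoidHom.finsetProd_apply]

/-- Its type. -/
def tupleType (φ : K →+* ℂ) (l : ℕ) [Fact l.Prime] [IsCyclotomicExtension {l} ℚ K]
    (a : Fin m → ZMod l) (σ : K →+* ℂ) : ℤ :=
  ∑ j : Fin m, pairType φ l (a j) (psum a j) σ

theorem isAlgChar_tupleChar (hl2 : l ≠ 2) (φ : K →+* ℂ) {a : Fin m → ZMod l} (ha : ∀ i, a i ≠ 0) :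
    IsAlgChar (Ideal.span {(zl - 1) ^ 2}) (tupleType φ l a) (tupleChar φ l a) := by
  have h1 := isAlgChar_oneChar (K := K) hl2
  have hp := fun j : Fin m => isAlgChar_pairChar hl2 φ (ha j) (psum a j)
  refine ⟨h1.ne_bot, fun I hI => ?_, fun x hx => ?_⟩
  · rw [tupleChar_apply, mul_ne_zero_iff, Finset.prod_ne_zero_iff, h1.ne_zero_iff I hI,
      and_iff_left_of_imp]
    exact fun h j _ => ((hp j).ne_zero_iff I hI).2 h
  · rw [tupleChar_apply, h1.ray x hx, show typeVal (fun _ : K →+* ℂ => (0 : ℤ)) (x : K) = 1 by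
      simp [typeVal], one_mul, Finset.prod_congr rfl fun j _ => (hp j).ray x hx]
    have hx' : (x : K) ≠ 0 := RingOfIntegers.coe_ne_zero_iff.mpr hx.1
    have h2 := FA.JacobiST.typeVal_sum Finset.univ (fun _ : Fin m => 1)
      (fun j => pairType φ l (a j) (psum a j)) hx'
    simp only [Nat.cast_one, one_mul, pow_one] at h2
    exact h2.symm

/-- `l (1 - {x / l})`, `0` at `0`. -/
def coSaw (x : ZMod l) : ℤ := if x = 0 then 0 else (l : ℤ) - x.val

/-- The residue of an embedding. -/
def sOf (φ : K →+* ℂ) (l : ℕ) [Fact l.Prime] [IsCyclotomicExtension {l} ℚ K] (σ : K →+* ℂ) :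
    ZMod l :=
  haveI : NeZero l := ⟨(Fact.out : l.Prime).ne_zero⟩
  (expo l ((embEquiv φ l).symm σ) : ℕ)

theorem sOf_ne_zero (φ : K →+* ℂ) (σ : K →+* ℂ) : sOf φ l σ ≠ 0 := by
  rw [sOf, ne_eq, ZMod.natCast_eq_zero_iff]
  exact not_dvd_expo _

theorem exists_sOf_eq (φ : K →+* ℂ) {s : ZMod l} (hs : s ≠ 0) : ∃ σ, sOf φ l σ = s := by
  have : NeZero l := ⟨hl.out.ne_zero⟩
  obtain ⟨g, hg, -⟩ := exists_expo_eq (K := K) (not_dvd_val hs)
  rw [Nat.mod_eq_of_lt (ZMod.val_lt s)] at hg
  refine ⟨embEquiv φ l g, ?_⟩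
  rw [sOf, Equiv.symm_apply_apply, hg, ZMod.natCast_zmod_val]

theorem sOf_conjugate (φ : K →+* ℂ) (σ : K →+* ℂ) :
    sOf φ l (ComplexEmbedding.conjugate σ) = -sOf φ l σ := by
  have : NeZero l := ⟨hl.out.ne_zero⟩
  obtain ⟨c, hc, hexp, hconj⟩ := exists_conjAut (l := l) (K := K)
  obtain ⟨g, rfl⟩ := (embEquiv φ l).surjective σ
  have e : ComplexEmbedding.conjugate (embEquiv φ l g) = embEquiv φ l (g * c) := RingHom.ext fun x => by
    rw [ComplexEmbedding.conjugate_coe_eq, embEquiv_apply, embEquiv_apply, hconj, mul_inv_rev, hc,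
      AlgEquiv.mul_apply]
  rw [e, sOf, sOf, Equiv.symm_apply_apply, Equiv.symm_apply_apply, eq_neg_iff_add_eq_zero,
    ← Nat.cast_add, hexp, ZMod.natCast_self]

theorem pairType_spec (φ : K →+* ℂ) {x : ZMod l} (hx : x ≠ 0) (y : ZMod l) (σ : K →+* ℂ) :
    (l : ℤ) * pairType φ l x y σ + coSaw ((x + y) * sOf φ l σ) =
      coSaw (x * sOf φ l σ) + coSaw (y * sOf φ l σ) := by
  have : NeZero l := ⟨hl.out.ne_zero⟩
  set s := sOf φ l σ with hsdef
  have hs : s ≠ 0 := sOf_ne_zero φ σ
  have hxs := mul_ne_zero hx hs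
  by_cases hy : y = 0
  · subst hy
    simp [pairType, coSaw]
  have hys := mul_ne_zero hy hs
  by_cases hxy : x + y = 0
  · have := val_add_val_neg hxs
    rw [← neg_mul, show -x = y by linear_combination -hxy] at this
    rw [pairType, if_neg hy, if_pos hxy, hxy, zero_mul, coSaw, coSaw, coSaw, if_pos rfl,
      if_neg hxs, if_neg hys]
    omega
  have hzs := mul_ne_zero hxy hs
  have h4 : jacobiType φ l x.val y.val σ =
      if (x * s).val + (y * s).val < l then 1 else 0 := by
    rw [jacobiType, cmExpo, hsdef, sOf, ZMod.val_mul, ZMod.val_mul, ZMod.val_natCast,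
      Nat.mul_mod_mod, Nat.mul_mod_mod]
    push_cast
    rfl
  have h5 : ((x + y) * s).val = ((x * s).val + (y * s).val) % l := by rw [add_mul, ZMod.val_add]
  have := ZMod.val_lt (x * s)
  have := ZMod.val_lt (y * s)
  rw [pairType, if_neg hy, if_neg hxy, h4, coSaw, coSaw, coSaw, if_neg hzs, if_neg hxs, if_neg hys,
    h5]
  split_ifs with h6
  · rw [Nat.mod_eq_of_lt h6]; push_cast; ring
  · rw [Nat.mod_eq_sub_mod (by omega), Nat.mod_eq_of_lt (by omega), Nat.cast_sub (by omega)]
    push_cast; ring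

/-- **The exponents.** -/
theorem mul_tupleType (φ : K →+* ℂ) {a : Fin m → ZMod l} (ha : ∀ i, a i ≠ 0) (hsum : ∑ i, a i = 0)
    (σ : K →+* ℂ) :
    (l : ℤ) * tupleType φ l a σ = (m : ℤ) * l - (residueSum a (sOf φ l σ) : ℤ) := by
  have h := telescope (M := Multiplicative ℤ) ha
    (fun x y => Multiplicative.ofAdd ((l : ℤ) * pairType φ l x y σ))
    (fun x => Multiplicative.ofAdd (coSaw (x * sOf φ l σ))) (by simp [coSaw])
    (fun x y hx => by rw [← ofAdd_add, ← ofAdd_add, pairType_spec φ hx y σ]) hsum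
  have h' := congrArg Multiplicative.toAdd h
  simp only [toAdd_prod, toAdd_ofAdd] at h'
  rw [tupleType, Finset.mul_sum, h', residueSum, Nat.cast_sum]
  simp only [coSaw, if_neg (mul_ne_zero (ha _) (sOf_ne_zero φ σ)), Finset.sum_sub_distrib,
    Finset.sum_const, Finset.card_univ, Fintype.card_fin, nsmul_eq_mul]

theorem tupleType_pure (φ : K →+* ℂ) {a : Fin m → ZMod l} (ha : ∀ i, a i ≠ 0)
    (hsum : ∑ i, a i = 0) : IsPure (tupleType φ l a) (m : ℤ) := fun σ => by
  refine mul_left_cancel₀ (Int.natCast_ne_zero.2 hl.out.ne_zero) ?_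
  rw [mul_add, mul_tupleType φ ha hsum, mul_tupleType φ ha hsum, sOf_conjugate]
  have := congrArg (Nat.cast : ℕ → ℤ) (residueSum_add_neg ha (sOf_ne_zero φ σ))
  push_cast at this
  linear_combination -this

/-- **Unpaired tuples give characters that are no powers of the norm.** -/
theorem tupleType_not_symm (hl2 : l ≠ 2) (φ : K →+* ℂ) {a : Fin m → ZMod l} (ha : ∀ i, a i ≠ 0)
    (hsum : ∑ i, a i = 0) (hp : ¬ IsPaired a) :
    ∃ σ, tupleType φ l a σ ≠ tupleType φ l a (ComplexEmbedding.conjugate σ) := by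
  rw [← isHodge_iff_isPaired hl2 ha, IsHodge] at hp
  push Not at hp
  obtain ⟨s, hs, hne⟩ := hp
  obtain ⟨σ, rfl⟩ := exists_sOf_eq φ hs
  refine ⟨σ, fun e => hne ?_⟩
  have h1 := mul_tupleType φ ha hsum σ
  have h2 := tupleType_pure φ ha hsum σ
  rw [← e] at h2
  have h3 : (2 * residueSum a (sOf φ l σ) : ℤ) = m * l := by linear_combination (2 : ℤ) * h1 - (l : ℤ) * h2
  exact_mod_cast h3

theorem not_isNormPower_tupleChar (hl2 : l ≠ 2) (φ : K →+* ℂ) {a : Fin m → ZMod l}
    (ha : ∀ i, a i ≠ 0) (hsum : ∑ i, a i = 0) (hp : ¬ IsPaired a) :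
    ¬ IsNormPower (tupleChar φ l a) :=
  FA.JacobiST.not_isNormPower_of_type (isAlgChar_tupleChar hl2 φ ha) (tupleType_pure φ ha hsum)
    (tupleType_not_symm hl2 φ ha hsum hp)

end FA.FermatTate

end
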