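import Fermat.Agent.FermatTate.Mean
import Mathlib.Analysis.Meromorphic.Order

/-!
# The L-function of the Fermat varieties

Each unpaired tuple gives an entire L-series without zeros on `d + 1 ≤ re s`, each paired one the
zeta function of `ℚ(ζ_l)` without its factor at `l`, shifted by `d`: a simple pole at `d + 1`.
-/

set_option autoImplicit false
set_option linter.unusedSectionVars false

noncomputable section

open NumberField IsDedekindDomain Filter Topology
open FA.Hecke (IsRayChar IsNontrivial heckeL exists_heckeG)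
open FA.HeckeTorus (Unimod)
open FA.IdeleClass (normTwist normTwist_apply exists_entire_of_ne)
open FA.FermatHW (coprime_of_notMem)
open scoped Classical

namespace FA.FermatTate

universe u

variable {l : ℕ} [hl : Fact l.Prime] {K : Type u} [Field K] [NumberField K]
  [IsCyclotomicExtension {l} ℚ K] {d : ℕ}

/-- The Euler product of a unimodular character. -/
theorem hasProd_euler {f : Ideal (𝓞 K) →* ℂ} (hf : Unimod f) {s : ℂ} (hs : 1 < s.re) :
    HasProd (fun v : HeightOneSpectrum (𝓞 K) =>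
      (1 - f v.asIdeal * ((Ideal.absNorm v.asIdeal : ℕ) : ℂ) ^ (-s))⁻¹) (heckeL f s) := by
  rw [← hf.exp_logF hs]
  have hp : HasProd _ (Complex.exp (FA.Hecke.logF f s)) :=
    (hf.summable_logTerm hs).hasSum.cexp
  convert hp using 1
  funext v
  rw [Function.comp_apply, Complex.exp_neg, Complex.exp_log (Complex.slitPlane_ne_zero
    (FA.PrimeIdeal.one_sub_mem_slitPlane (hf.norm_fPow_le_half hs.le v)))]
  rfl

/-- `ω_a (v) = ∏ (-g) / N v`. -/
def omega (φ : K →+* ℂ) (l : ℕ) [Fact l.Prime] [IsCyclotomicExtension {l} ℚ K] {m : ℕ}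
    (a : Fin m → ZMod l) (v : HeightOneSpectrum (𝓞 K)) : ℂ :=
  tupleChar φ l a v.asIdeal / ((Ideal.absNorm v.asIdeal : ℕ) : ℂ)

/-- The unitary character of a tuple. -/
def unitChar (φ : K →+* ℂ) (l d : ℕ) [Fact l.Prime] [IsCyclotomicExtension {l} ℚ K]
    (a : Fin (2 * d + 2) → ZMod l) : Ideal (𝓞 K) →* ℂ :=
  if IsPaired a then oneChar K l else normTwist (tupleChar φ l a) (-((((2 * d + 2 : ℕ) : ℤ) : ℂ) / 2))

theorem unimod_oneChar : Unimod (oneChar K l) :=
  ⟨fun I _ => by rw [oneChar_apply]; split_ifs <;> simp,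
    fun v => by rw [oneChar_apply]; split_ifs <;> simp⟩

theorem unimod_unitChar (hl2 : l ≠ 2) (φ : K →+* ℂ) {a : Fin (2 * d + 2) → ZMod l}
    (ha : a ∈ tuples l (2 * d + 2)) : Unimod (unitChar φ l d a) := by
  obtain ⟨ha0, ha1⟩ := mem_tuples.1 ha
  unfold unitChar
  split_ifs with hp
  · exact unimod_oneChar
  · exact ((isAlgChar_tupleChar hl2 φ ha0).torus (tupleType_pure φ ha0 ha1)).unimod

theorem unitChar_prime (hl2 : l ≠ 2) (φ : K →+* ℂ) {a : Fin (2 * d + 2) → ZMod l}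
    (ha : a ∈ tuples l (2 * d + 2)) (v : HeightOneSpectrum (𝓞 K)) (s : ℂ) :
    unitChar φ l d a v.asIdeal * ((Ideal.absNorm v.asIdeal : ℕ) : ℂ) ^ (-(s - d)) =
      omega φ l a v * ((Ideal.absNorm v.asIdeal : ℕ) : ℂ) ^ (-s) := by
  have hN : ((Ideal.absNorm v.asIdeal : ℕ) : ℂ) ≠ 0 :=
    Nat.cast_ne_zero.2 (Ideal.absNorm_eq_zero_iff.not.2 v.ne_bot)
  have e : unitChar φ l d a v.asIdeal = tupleChar φ l a v.asIdeal *
      (((Ideal.absNorm v.asIdeal : ℕ) : ℂ) ^ (d + 1))⁻¹ := by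
    unfold unitChar
    split_ifs with hp
    · rw [oneChar_apply]
      by_cases hv : (l : 𝓞 K) ∈ v.asIdeal
      · have hnc : ¬ l.Coprime (Ideal.absNorm v.asIdeal) := fun hc =>
          FA.PowerReciprocity.natCast_notMem v.isPrime.ne_top hc hv
        rw [if_neg hnc, tupleChar_apply, oneChar_apply, if_neg hnc, zero_mul, zero_mul]
      · rw [if_pos (coprime_of_notMem hl2 hv), (exists_tupleChar_prime hl2 φ hv).1 _ a ha hp,
          show (2 * d + 2) / 2 = d + 1 by omega, mul_inv_cancel₀ (pow_ne_zero _ hN)]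
    · rw [normTwist_apply, cpow_weight]
  rw [e, omega, show -(s - d) = -s + (d : ℕ) by ring, Complex.cpow_add _ _ hN, Complex.cpow_natCast,
    pow_succ]
  field_simp

/-- An unpaired tuple. -/
theorem exists_entire_unpaired (hl2 : l ≠ 2) (φ : K →+* ℂ) {a : Fin (2 * d + 2) → ZMod l}
    (ha : a ∈ tuples l (2 * d + 2)) (hp : ¬ IsPaired a) :
    ∃ E : ℂ → ℂ, Differentiable ℂ E ∧
      (∀ s : ℂ, 1 < s.re → heckeL (unitChar φ l d a) s = E s) ∧ ∀ s : ℂ, 1 ≤ s.re → E s ≠ 0 := by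
  obtain ⟨ha0, ha1⟩ := mem_tuples.1 ha
  have h := isAlgChar_tupleChar hl2 φ ha0
  rw [unitChar, if_neg hp]
  exact exists_entire_of_ne (h.torus (tupleType_pure φ ha0 ha1))
    (h.nontrivial_of_not_normPower (tupleType_pure φ ha0 ha1)
      (not_isNormPower_tupleChar hl2 φ ha0 ha1 hp))

/-- The trivial character. -/
theorem exists_oneChar_pole (hl2 : l ≠ 2) :
    ∃ G : ℂ → ℂ, Differentiable ℂ G ∧ (∀ s : ℂ, 1 ≤ s.re → G s ≠ 0) ∧
      ∀ s : ℂ, 1 < s.re → heckeL (oneChar K l) s = G s / (s - 1) := by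
  have h := isAlgChar_oneChar (K := K) (l := l) hl2
  have hr := IsRayChar.mk h.ne_bot h.ne_zero_iff fun x hx hx1 hx2 => by
    rw [h.ray x ⟨hx, hx1, hx2⟩]
    simp [FA.AlgHecke.typeVal]
  have hnt : ¬IsNontrivial (oneChar K l) := fun ⟨I, _, h0, h1⟩ => by
    rw [oneChar_apply] at h0 h1
    split_ifs at h0 h1 with hc
    · exact h1 rfl
    · exact h0 rfl
  obtain ⟨G, hG, -, hG'⟩ := exists_heckeG hr
  refine ⟨G, hG, fun s hs => hr.heckeG_ne_zero hnt hG hG' hs, fun s hs => ?_⟩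
  rw [← hG' s hs, mul_div_cancel_left₀]
  intro e
  rw [sub_eq_zero] at e
  rw [e, Complex.one_re] at hs
  exact lt_irrefl _ hs

/-- **The L-function: a pole of order the number of paired tuples.** -/
theorem exists_lFunction (hl2 : l ≠ 2) (φ : K →+* ℂ) (d : ℕ) :
    ∃ L : ℂ → ℂ,
      (∀ s : ℂ, (d : ℝ) + 1 < s.re → HasProd (fun v : HeightOneSpectrum (𝓞 K) =>
        ∏ a ∈ tuples l (2 * d + 2),
          (1 - omega φ l a v * ((Ideal.absNorm v.asIdeal : ℕ) : ℂ) ^ (-s))⁻¹) (L s)) ∧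
      MeromorphicOn L Set.univ ∧
      meromorphicOrderAt L ((d : ℂ) + 1) = ((-(rho l d : ℤ) : ℤ) : WithTop ℤ) ∧
      (∀ s : ℂ, s ≠ (d : ℂ) + 1 → AnalyticAt ℂ L s) ∧
      ∀ s : ℂ, (d : ℝ) + 1 ≤ s.re → s ≠ (d : ℂ) + 1 → L s ≠ 0 := by
  obtain ⟨G, hG, hG0, hG'⟩ := exists_oneChar_pole (K := K) hl2
  set T := tuples l (2 * d + 2)
  set U := T.filter fun a => ¬ IsPaired a
  have hU : ∀ a : U, ∃ E : ℂ → ℂ, Differentiable ℂ E ∧
      (∀ s : ℂ, 1 < s.re → heckeL (unitChar φ l d a.1) s = E s) ∧ ∀ s : ℂ, 1 ≤ s.re → E s ≠ 0 :=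
    fun a => exists_entire_unpaired hl2 φ (Finset.mem_filter.1 a.2).1 (Finset.mem_filter.1 a.2).2
  choose E hE hE' hE0 using hU
  set Q : ℂ → ℂ := fun s => (∏ a : U, E a (s - d)) * G (s - d) ^ rho l d
  have hQ : Differentiable ℂ Q :=
    (Differentiable.fun_finsetProd (u := Finset.univ) fun a _ =>
      (hE a).comp (differentiable_id.sub_const _)).mul ((hG.comp (differentiable_id.sub_const _)).pow _)
  have hQ0 : ∀ s : ℂ, (d : ℝ) + 1 ≤ s.re → Q s ≠ 0 := fun s hs => by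
    have hs' : 1 ≤ (s - (d : ℂ)).re := by simp; linarith
    exact mul_ne_zero (Finset.prod_ne_zero_iff.2 fun a _ => hE0 a _ hs') (pow_ne_zero _ (hG0 _ hs'))
  set c : ℂ := (d : ℂ) + 1
  set L : ℂ → ℂ := fun s => (s - c) ^ (-(rho l d : ℤ)) * Q s
  have hA : ∀ s : ℂ, s ≠ c → AnalyticAt ℂ L s := fun s hs =>
    ((analyticAt_id.sub analyticAt_const).fun_zpow (sub_ne_zero.2 hs)).mul (hQ.analyticAt s)
  have hM : MeromorphicOn L Set.univ := fun s _ =>
    ((MeromorphicAt.id s).sub (MeromorphicAt.const c s)).zpow _ |>.mul (hQ.analyticAt s).meromorphicAt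
  refine ⟨L, fun s hs => ?_, hM, ?_, hA, fun s hs hne => mul_ne_zero
    (zpow_ne_zero _ (sub_ne_zero.2 hne)) (hQ0 s hs)⟩
  · have hs' : 1 < (s - (d : ℂ)).re := by simp; linarith
    have h := hasProd_prod (s := T) fun a ha => hasProd_euler (unimod_unitChar hl2 φ ha) hs'
    have e : ∀ v : HeightOneSpectrum (𝓞 K),
        ∏ a ∈ T, (1 - unitChar φ l d a v.asIdeal *
          ((Ideal.absNorm v.asIdeal : ℕ) : ℂ) ^ (-(s - d)))⁻¹ =
        ∏ a ∈ T, (1 - omega φ l a v * ((Ideal.absNorm v.asIdeal : ℕ) : ℂ) ^ (-s))⁻¹ := fun v =>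
      Finset.prod_congr rfl fun a ha => by rw [unitChar_prime hl2 φ ha v s]
    simp only [e] at h
    convert h using 1
    rw [← Finset.prod_filter_mul_prod_filter_not T IsPaired,
      Finset.prod_congr rfl (fun a ha => by
        rw [unitChar, if_pos (Finset.mem_filter.1 ha).2, hG' _ hs'] :
        ∀ a ∈ T.filter IsPaired, heckeL (unitChar φ l d a) (s - d) = G (s - d) / (s - d - 1)),
      Finset.prod_const, ← Finset.prod_coe_sort (T.filter fun a => ¬ IsPaired a)]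
    rw [show (fun a : U => heckeL (unitChar φ l d a.1) (s - d)) = fun a => E a (s - d) from
      funext fun a => hE' a _ hs']
    show (s - c) ^ (-(rho l d : ℤ)) * ((∏ a : U, E a (s - d)) * G (s - d) ^ rho l d) = _
    rw [show ((T.filter IsPaired).card) = rho l d from rfl, div_pow, zpow_neg, zpow_natCast,
      show s - (d : ℂ) - 1 = s - c by ring]
    ring
  · rw [meromorphicOrderAt_eq_int_iff (hM c trivial)]
    refine ⟨Q, hQ.analyticAt c, hQ0 c (le_of_eq ?_), Eventually.of_forall fun s => rfl⟩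
    simp [c]

end FA.FermatTate

end
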