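import Fermat.Agent.FermatTate.Points
import Fermat.Agent.AlgebraicHecke.Angles

/-!
# The mean of the traces of the Fermat varieties

Normalised to absolute value one, the character of a tuple has mean `1` over the primes if the
tuple is paired and mean `0` otherwise, so the traces of the Fermat variety of dimension `2 d` over
`N v ^ d` have as mean the number of paired tuples.
-/

set_option autoImplicit false
set_option linter.unusedSectionVars false

noncomputable section

open NumberField IsDedekindDomain Filter Topology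
open FA.Hecke (HasMean hasMean_one hasMean_congr wSum)
open scoped Classical

namespace FA.FermatTate

universe u

variable {l : ℕ} [hl : Fact l.Prime] {K : Type u} [Field K] [NumberField K]
  [IsCyclotomicExtension {l} ℚ K] {d : ℕ}

theorem cpow_weight (d N : ℕ) :
    (N : ℂ) ^ (-((((2 * d + 2 : ℕ) : ℤ) : ℂ) / 2)) = ((N : ℂ) ^ (d + 1))⁻¹ := by
  rw [show (((2 * d + 2 : ℕ) : ℤ) : ℂ) / 2 = ((d + 1 : ℕ) : ℂ) by push_cast; ring, Complex.cpow_neg,
    Complex.cpow_natCast]

theorem finite_over_l : {v : HeightOneSpectrum (𝓞 K) | (l : 𝓞 K) ∈ v.asIdeal}.Finite := by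
  have h0 : Ideal.span {(l : 𝓞 K)} ≠ ⊥ := by
    rw [ne_eq, Ideal.span_singleton_eq_bot, Nat.cast_eq_zero]; exact hl.out.ne_zero
  exact (Ideal.finite_factors h0).subset fun v hv => Ideal.dvd_span_singleton.2 hv

theorem norm_tupleChar_le (hl2 : l ≠ 2) (φ : K →+* ℂ) {a : Fin (2 * d + 2) → ZMod l}
    (ha : a ∈ tuples l (2 * d + 2)) (v : HeightOneSpectrum (𝓞 K)) :
    ‖tupleChar φ l a v.asIdeal / ((Ideal.absNorm v.asIdeal : ℕ) : ℂ) ^ (d + 1)‖ ≤ 1 := by
  obtain ⟨ha0, ha1⟩ := mem_tuples.1 ha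
  have h := ((isAlgChar_tupleChar hl2 φ ha0).torus (tupleType_pure φ ha0 ha1)).norm_le v.ne_bot
  rwa [FA.IdeleClass.normTwist_apply, cpow_weight, ← div_eq_mul_inv] at h

/-- **One tuple.** -/
theorem hasMean_tuple (hl2 : l ≠ 2) (φ : K →+* ℂ) {a : Fin (2 * d + 2) → ZMod l}
    (ha : a ∈ tuples l (2 * d + 2)) :
    HasMean (fun v : HeightOneSpectrum (𝓞 K) =>
      tupleChar φ l a v.asIdeal / ((Ideal.absNorm v.asIdeal : ℕ) : ℂ) ^ (d + 1))
      (if IsPaired a then 1 else 0) := by
  obtain ⟨ha0, ha1⟩ := mem_tuples.1 ha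
  split_ifs with hp
  · refine hasMean_congr _ (finite_over_l (K := K) (l := l)) (B := 2) (fun v => ?_) (fun v hv _ => ?_)
      (b := fun _ => (1 : ℂ)) (by simpa using (hasMean_one K).map Complex.ofRealCLM)
    · exact (norm_sub_le _ _).trans (by linarith [norm_tupleChar_le hl2 φ ha v, norm_one (α := ℂ)])
    · rw [(exists_tupleChar_prime hl2 φ hv).1 _ a ha hp, show (2 * d + 2) / 2 = d + 1 by omega,
        div_self (pow_ne_zero _ (Nat.cast_ne_zero.2 (Ideal.absNorm_eq_zero_iff.not.2 v.ne_bot)))]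
  · have h := (isAlgChar_tupleChar hl2 φ ha0).hasMean_zero (tupleType_pure φ ha0 ha1)
      (not_isNormPower_tupleChar hl2 φ ha0 ha1 hp)
    simp only [cpow_weight, ← div_eq_mul_inv] at h
    exact h

/-- The number of paired tuples. -/
def rho (l d : ℕ) [Fact l.Prime] : ℕ := ((tuples l (2 * d + 2)).filter IsPaired).card

/-- The primitive trace over `N v ^ d`. -/
def normalisedTrace (l d : ℕ) (v : HeightOneSpectrum (𝓞 K)) : ℂ :=
  ((varietyPoints l (2 * d + 2) v : ℂ) -
    ∑ j ∈ Finset.range (2 * d + 1), ((Ideal.absNorm v.asIdeal : ℕ) : ℂ) ^ j) /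
    ((Ideal.absNorm v.asIdeal : ℕ) : ℂ) ^ d

theorem normalisedTrace_eq (hl2 : l ≠ 2) (φ : K →+* ℂ) {v : HeightOneSpectrum (𝓞 K)}
    (hv : (l : 𝓞 K) ∉ v.asIdeal) :
    normalisedTrace l d v = ∑ a ∈ tuples l (2 * d + 2),
      tupleChar φ l a v.asIdeal / ((Ideal.absNorm v.asIdeal : ℕ) : ℂ) ^ (d + 1) := by
  rw [normalisedTrace, (exists_tupleChar_prime hl2 φ hv).2 _ (by omega),
    show 2 * d + 2 - 1 = 2 * d + 1 by omega, add_sub_cancel_left,
    Even.neg_one_pow ⟨d + 1, by ring⟩, one_mul, div_div, Finset.sum_div, pow_succ']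

/-- **The traces have the number of paired tuples as mean.** -/
theorem hasMean_normalisedTrace (hl2 : l ≠ 2) (φ : K →+* ℂ) :
    HasMean (fun v : HeightOneSpectrum (𝓞 K) => normalisedTrace l d v) (rho l d : ℂ) := by
  have h := HasMean.finset_sum (tuples l (2 * d + 2)) fun a ha => hasMean_tuple hl2 φ ha
  rw [Finset.sum_boole] at h
  change HasMean _ (rho l d : ℂ) at h
  have hfin := finite_over_l (K := K) (l := l)
  set D := fun v : HeightOneSpectrum (𝓞 K) => normalisedTrace l d v - ∑ a ∈ tuples l (2 * d + 2),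
    tupleChar φ l a v.asIdeal / ((Ideal.absNorm v.asIdeal : ℕ) : ℂ) ^ (d + 1) with hD
  refine hasMean_congr _ hfin (B := ∑ v ∈ hfin.toFinset, ‖D v‖) (fun v => ?_)
    (fun v hv _ => normalisedTrace_eq hl2 φ hv) h
  by_cases hv : (l : 𝓞 K) ∈ v.asIdeal
  · exact Finset.single_le_sum (f := fun v => ‖D v‖) (fun w _ => norm_nonneg _)
      (hfin.mem_toFinset.2 hv)
  · rw [normalisedTrace_eq hl2 φ hv, sub_self, norm_zero]
    exact Finset.sum_nonneg fun w _ => norm_nonneg _

end FA.FermatTate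

end
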