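import Fermat.Agent.FermatTate.Character
import Fermat.Agent.DiagonalHypersurface.Zeta
import Fermat.Agent.PowerReciprocity.FermatPoints

/-!
# The points of the Fermat varieties at the primes of `ℚ(ζ_l)`

At a prime `v` not over `l` the tuple characters are the products `∏ (-g (χ ^ a i))` of Gauss sums,
so they count the points of `∑ x i ^ l = 0`, and for a paired tuple they are `N v ^ (m / 2)` exactly.
-/

set_option autoImplicit false
set_option linter.unusedSectionVars false

noncomputable section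

open NumberField IsDedekindDomain Finset
open FA.PowerReciprocity FA.FermatHW
open FA.DiagonalHypersurface (diagonalPoints charTuples omegaValue mem_charTuples gaussSum_mul_inv)
open scoped Classical

namespace FA.FermatTate

universe u w

variable {l : ℕ} [hl : Fact l.Prime] {m : ℕ}

/-! ### Halves -/

/-- The first half of the residues. -/
def half (l : ℕ) [NeZero l] : Finset (ZMod l) :=
  (univ.erase 0).filter fun x => 2 * x.val < l

theorem prod_halves {M : Type*} [CommMonoid M] (hl2 : l ≠ 2) (f : ZMod l → M) (h0 : f 0 = 1) :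
    ∏ x, f x = ∏ x ∈ half l, f x * f (-x) := by
  rw [← Finset.mul_prod_erase univ f (mem_univ 0), h0, one_mul,
    ← Finset.prod_filter_mul_prod_filter_not (univ.erase 0) (fun x : ZMod l => 2 * x.val < l),
    half, Finset.prod_mul_distrib]
  congr 1
  refine Finset.prod_nbij' (fun x => -x) (fun x => -x) (fun x hx => ?_) (fun x hx => ?_)
    (fun x _ => neg_neg x) (fun x _ => neg_neg x) fun x _ => by rw [neg_neg]
  · simp only [mem_filter, mem_erase, mem_univ, and_true] at hx ⊢
    have := val_add_val_neg hx.1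
    have := FA.JacobiST.two_val_ne hl2 x
    exact ⟨neg_ne_zero.2 hx.1, by omega⟩
  · simp only [mem_filter, mem_erase, mem_univ, and_true] at hx ⊢
    have := val_add_val_neg hx.1
    exact ⟨neg_ne_zero.2 hx.1, by omega⟩

theorem sum_half_count (hl2 : l ≠ 2) {a : Fin m → ZMod l} (ha : ∀ i, a i ≠ 0) (hp : IsPaired a) :
    ∑ x ∈ half l, (univ.filter fun i => a i = x).card = m / 2 := by
  have h := prod_halves (M := Multiplicative ℕ) hl2
    (fun x => Multiplicative.ofAdd (univ.filter fun i => a i = x).card)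
    (by simp [ha])
  have h' := congrArg Multiplicative.toAdd h
  simp only [toAdd_prod, toAdd_mul, toAdd_ofAdd] at h'
  rw [← Finset.card_eq_sum_card_fiberwise (fun i _ => mem_univ (a i)), card_univ, Fintype.card_fin,
    sum_congr rfl fun x _ => show (univ.filter fun i => a i = x).card +
      (univ.filter fun i => a i = -x).card = 2 * (univ.filter fun i => a i = x).card by
      rw [← hp x, two_mul], ← mul_sum] at h'
  omega

/-! ### A finite field -/

section field

variable {F : Type w} [Field F] [Fintype F] {χ : MulChar F ℂ}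

/-- The characters killed by `l` by residues. -/
def charOf (χ : MulChar F ℂ) (x : ZMod l) : MulChar F ℂ := χ ^ x.val

theorem charOf_add (hχ : χ ^ l = 1) (x y : ZMod l) :
    charOf χ (x + y) = charOf χ x * charOf χ y := by
  rw [charOf, charOf, charOf, ZMod.val_add, ← pow_add]
  conv_rhs => rw [← Nat.mod_add_div (x.val + y.val) l, pow_add, pow_mul, hχ, one_pow, mul_one]

theorem charOf_zero : charOf (l := l) χ 0 = 1 := by rw [charOf, ZMod.val_zero, pow_zero]

theorem charOf_sum (hχ : χ ^ l = 1) {ι : Type*} (s : Finset ι) (a : ι → ZMod l) :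
    charOf χ (∑ i ∈ s, a i) = ∏ i ∈ s, charOf χ (a i) := by
  induction s using Finset.induction_on with
  | empty => exact charOf_zero
  | insert i s hi ih => rw [sum_insert hi, prod_insert hi, charOf_add hχ, ih]

variable (hχ : χ ^ l = 1) (hne : χ ≠ 1)

include hχ hne

theorem orderOf_char : orderOf χ = l := orderOf_eq_prime hχ hne

theorem charOf_injective : Function.Injective (charOf (l := l) χ) := fun x y e => by
  have h := pow_injOn_Iio_orderOf (x := χ) (show x.val < orderOf χ by
    rw [orderOf_char hχ hne]; exact ZMod.val_lt x) (show y.val < orderOf χ by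
    rw [orderOf_char hχ hne]; exact ZMod.val_lt y) e
  exact ZMod.val_injective l h

theorem charOf_ne_one {x : ZMod l} (hx : x ≠ 0) : charOf χ x ≠ 1 := fun e =>
  hx (charOf_injective hχ hne (e.trans charOf_zero.symm))

theorem charOf_neg_one (hl2 : l ≠ 2) (x : ZMod l) : charOf χ x (-1) = 1 := by
  rcases eq_or_ne x 0 with rfl | hx
  · rw [charOf_zero, MulChar.one_apply isUnit_one.neg]
  have h1 : χ (-1) ^ l = 1 := by
    rw [← MulChar.pow_apply' _ hl.out.ne_zero, hχ, MulChar.one_apply isUnit_one.neg]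
  have h2 : χ (-1) ^ 2 = 1 := by rw [← map_pow, neg_one_sq, map_one]
  have h3 : χ (-1) = 1 := by
    obtain ⟨k, hk⟩ := hl.out.odd_of_ne_two hl2
    rwa [hk, pow_succ, pow_mul, h2, one_pow, one_mul] at h1
  rw [charOf, MulChar.pow_apply' _ ((ZMod.val_ne_zero x).2 hx), h3, one_pow]

omit hχ hne in
/-- `-g`. -/
def negGauss (χ : MulChar F ℂ) (ψ : AddChar F ℂ) (x : ZMod l) : ℂ := -gaussSum (charOf χ x) ψ

variable {ψ : AddChar F ℂ} (hψ : ψ.IsPrimitive)

include hψ

theorem negGauss_zero : negGauss (l := l) χ ψ 0 = 1 := by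
  rw [negGauss, charOf_zero, gaussSum_one_left, neg_neg]
  intro e
  have := hψ (one_ne_zero (α := F))
  rw [e] at this
  exact this (by ext z; simp)

theorem negGauss_mul_neg (hl2 : l ≠ 2) {x : ZMod l} (hx : x ≠ 0) :
    negGauss χ ψ x * negGauss χ ψ (-x) = (Fintype.card F : ℂ) := by
  have e : charOf χ (-x) = (charOf χ x)⁻¹ := eq_inv_of_mul_eq_one_right (by
    rw [← charOf_add hχ, add_neg_cancel, charOf_zero])
  rw [negGauss, negGauss, e, neg_mul_neg, gaussSum_mul_inv (charOf_ne_one hχ hne hx) hψ,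
    charOf_neg_one hχ hne hl2, one_mul]

theorem negGauss_jacobi {x y : ZMod l} (hxy : x + y ≠ 0) :
    -jacobiSum (charOf χ x) (charOf χ y) * negGauss χ ψ (x + y) =
      negGauss χ ψ x * negGauss χ ψ y := by
  have h := jacobiSum_mul_nontrivial (χ := charOf χ x) (φ := charOf χ y)
    (by rw [← charOf_add hχ]; exact charOf_ne_one hχ hne hxy) ψ
  rw [negGauss, negGauss, negGauss, charOf_add hχ]
  linear_combination h

theorem prod_negGauss_paired (hl2 : l ≠ 2) {a : Fin m → ZMod l} (ha : ∀ i, a i ≠ 0)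
    (hp : IsPaired a) : ∏ i, negGauss χ ψ (a i) = (Fintype.card F : ℂ) ^ (m / 2) := by
  rw [show ∏ i, negGauss χ ψ (a i) =
      ∏ x : ZMod l, negGauss χ ψ x ^ (univ.filter fun i => a i = x).card by
    rw [← prod_fiberwise univ a]
    refine prod_congr rfl fun x _ => ?_
    rw [prod_congr rfl fun i hi => by rw [(mem_filter.1 hi).2], prod_const],
    prod_halves hl2 _ (by rw [negGauss_zero hχ hne hψ, one_pow]),
    prod_congr rfl fun x hx => by
      rw [← hp x, ← mul_pow, negGauss_mul_neg hχ hne hψ hl2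
        (mem_erase.1 (mem_filter.1 hx).1).1],
    prod_pow_eq_pow_sum, sum_half_count hl2 ha hp]

omit hψ

theorem charTuples_eq (hn : l ∣ Fintype.card F - 1) :
    charTuples F l m = (tuples l m).image fun a i => charOf χ (a i) := by
  have hk : (FA.FermatCount.killed F l).erase 1 = (univ.erase (0 : ZMod l)).image (charOf χ) := by
    refine (eq_of_subset_of_card_le (fun φ hφ => ?_) ?_).symm
    · obtain ⟨x, hx, rfl⟩ := mem_image.1 hφ
      refine mem_erase.2 ⟨charOf_ne_one hχ hne (mem_erase.1 hx).1, FA.FermatCount.mem_killed.2 ?_⟩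
      rw [charOf, ← pow_mul, mul_comm, pow_mul, hχ, one_pow]
    · rw [card_image_of_injective _ (charOf_injective hχ hne),
        card_erase_of_mem FA.FermatCount.one_mem_killed, FA.FermatCount.card_killed,
        Nat.gcd_eq_left hn, card_erase_of_mem (mem_univ _), card_univ, ZMod.card]
  ext φ
  rw [mem_charTuples, mem_image]
  constructor
  · rintro ⟨hφ, h1⟩
    have hex : ∀ i, ∃ x ∈ univ.erase (0 : ZMod l), charOf χ x = φ i := fun i => mem_image.1 (by
      rw [← hk]; exact mem_erase.2 ⟨(hφ i).1, FA.FermatCount.mem_killed.2 (hφ i).2⟩)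
    choose a ha hφa using hex
    refine ⟨a, mem_tuples.2 ⟨fun i => (mem_erase.1 (ha i)).1, charOf_injective hχ hne ?_⟩,
      funext hφa⟩
    rw [charOf_sum hχ, charOf_zero]
    simpa only [hφa] using h1
  · rintro ⟨a, ha, rfl⟩
    obtain ⟨ha0, ha1⟩ := mem_tuples.1 ha
    refine ⟨fun i => ⟨charOf_ne_one hχ hne (ha0 i), ?_⟩, ?_⟩
    · show (χ ^ (a i).val) ^ l = 1
      rw [← pow_mul, mul_comm, pow_mul, hχ, one_pow]
    · rw [← charOf_sum hχ, ha1, charOf_zero]

end field

/-! ### The primes of `ℚ(ζ_l)` -/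

variable {K : Type u} [Field K] [NumberField K] [IsCyclotomicExtension {l} ℚ K]

/-- The points of `∑ x i ^ l = 0` in projective space over the residue field. -/
def varietyPoints (l m : ℕ) (v : HeightOneSpectrum (𝓞 K)) : ℕ :=
  haveI := v.isMaximal
  letI := Ideal.Quotient.field v.asIdeal
  Nat.card {p : Projectivization (𝓞 K ⧸ v.asIdeal) (Fin m → 𝓞 K ⧸ v.asIdeal) //
    ∑ i, p.rep i ^ l = 0}

theorem exists_residueChar (hl2 : l ≠ 2) (φ : K →+* ℂ) {v : HeightOneSpectrum (𝓞 K)}
    (hv : (l : 𝓞 K) ∉ v.asIdeal) [Fintype (𝓞 K ⧸ v.asIdeal)] :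
    ∃ χ : MulChar (𝓞 K ⧸ v.asIdeal) ℂ, χ ^ l = 1 ∧ χ ≠ 1 ∧
      ∀ x y : ℕ, x ≠ 0 → y ≠ 0 →
        φ (jacobiPrime l x y v.asIdeal : K) = -jacobiSum (χ ^ x) (χ ^ y) := by
  have := v.isMaximal
  let := Ideal.Quotient.field v.asIdeal
  obtain ⟨χ₀, hχ₀⟩ := exists_symbolChar hl2 hv
  set g := φ.comp (algebraMap (𝓞 K) K)
  have hinj : Function.Injective g := φ.injective.comp RingOfIntegers.coe_injective
  refine ⟨χ₀.ringHomComp g, ?_, ?_, fun x y hx hy => ?_⟩
  · rw [MulChar.ringHomComp_pow, char_pow_card hv hχ₀, MulChar.ringHomComp_one]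
  · rw [MulChar.ringHomComp_ne_one_iff hinj]
    simpa using char_pow_ne_one hv hχ₀ (k := 1) fun e => hl.out.ne_one (Nat.dvd_one.mp e)
  · show g (jacobiPrime l x y v.asIdeal) = _
    rw [jacobiPrime_eq hχ₀ hx hy, map_neg, MulChar.ringHomComp_pow, MulChar.ringHomComp_pow,
      jacobiSum_ringHomComp]

/-- **The tuple characters at a prime are products of Gauss sums.** -/
theorem exists_tupleChar_prime (hl2 : l ≠ 2) (φ : K →+* ℂ) {v : HeightOneSpectrum (𝓞 K)}
    (hv : (l : 𝓞 K) ∉ v.asIdeal) :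
    (∀ m : ℕ, ∀ a : Fin m → ZMod l, a ∈ tuples l m → IsPaired a →
      tupleChar φ l a v.asIdeal = ((Ideal.absNorm v.asIdeal : ℕ) : ℂ) ^ (m / 2)) ∧
    ∀ m : ℕ, 0 < m → (varietyPoints l m v : ℂ) =
      ∑ j ∈ range (m - 1), ((Ideal.absNorm v.asIdeal : ℕ) : ℂ) ^ j +
        (-1) ^ m * (∑ a ∈ tuples l m, tupleChar φ l a v.asIdeal) /
          ((Ideal.absNorm v.asIdeal : ℕ) : ℂ) := by
  have := v.isMaximal
  have : Finite (𝓞 K ⧸ v.asIdeal) := Ideal.finiteQuotientOfFreeOfNeBot _ v.ne_bot
  let := Fintype.ofFinite (𝓞 K ⧸ v.asIdeal)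
  let := Ideal.Quotient.field v.asIdeal
  obtain ⟨χ, hχ, hne, hJ⟩ := exists_residueChar hl2 φ hv
  set ψ := AddChar.FiniteField.primitiveChar_to_Complex (𝓞 K ⧸ v.asIdeal)
  have hψ : ψ.IsPrimitive :=
    AddChar.FiniteField.primitiveChar_to_Complex_isPrimitive (𝓞 K ⧸ v.asIdeal)
  have hcard : Fintype.card (𝓞 K ⧸ v.asIdeal) = Ideal.absNorm v.asIdeal := card_quotient
  have hcop : l.Coprime (Ideal.absNorm v.asIdeal) := coprime_of_notMem hl2 hv
  have hval : ∀ {m : ℕ} (a : Fin m → ZMod l), a ∈ tuples l m →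
      tupleChar φ l a v.asIdeal = ∏ i, negGauss χ ψ (a i) := fun {m} a ha => by
    obtain ⟨ha0, ha1⟩ := mem_tuples.1 ha
    rw [tupleChar_apply, oneChar_apply, if_pos hcop, one_mul]
    refine telescope (a := a) ha0 (fun x y => pairChar φ l x y v.asIdeal) (negGauss χ ψ)
      (negGauss_zero hχ hne hψ) (fun x y hx => ?_) ha1
    unfold pairChar
    split_ifs with hy hxy
    · subst hy
      rw [oneChar_apply, if_pos hcop, one_mul, add_zero, negGauss_zero hχ hne hψ, mul_one]
    · rw [normChar_apply, if_pos hcop, hxy, negGauss_zero hχ hne hψ, mul_one,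
        show y = -x by linear_combination hxy, negGauss_mul_neg hχ hne hψ hl2 hx, hcard]
    · rw [jacobiChar_apply, if_pos hcop, jacobiIdeal_prime v.prime,
        hJ _ _ ((ZMod.val_ne_zero x).2 hx) ((ZMod.val_ne_zero y).2 hy)]
      exact negGauss_jacobi hχ hne hψ hxy
  refine ⟨fun m a ha hp => ?_, fun m hm => ?_⟩
  · rw [hval a ha, prod_negGauss_paired hχ hne hψ hl2 (mem_tuples.1 ha).1 hp, hcard]
  have hdvd : l ∣ Fintype.card (𝓞 K ⧸ v.asIdeal) - 1 := by
    rw [hcard]; exact dvd_absNorm_sub_one hv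
  have h := FA.DiagonalHypersurface.diagonalPoints_extension (n := l) (𝓞 K ⧸ v.asIdeal)
    hl.out.pos hdvd hm (a := fun _ => 1) (fun _ => one_ne_zero) hψ
  simp only [Module.finrank_self, pow_one, map_one, diagonalPoints, one_mul] at h
  rw [charTuples_eq hχ hne hdvd, Finset.sum_image fun a _ b _ e => funext fun i =>
    charOf_injective hχ hne (congrFun e i), hcard] at h
  show (Nat.card {p : Projectivization (𝓞 K ⧸ v.asIdeal) (Fin m → 𝓞 K ⧸ v.asIdeal) //
    ∑ i, p.rep i ^ l = 0} : ℂ) = _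
  rw [h, mul_div_assoc, Finset.sum_div]
  refine congrArg (_ + _ * ·) (Finset.sum_congr rfl fun a ha => ?_)
  rw [hval a ha, omegaValue, hcard]
  simp only [MulChar.map_one, one_mul]
  rfl

/-- **The paired tuples give powers of the norm.** -/
theorem tupleChar_paired (hl2 : l ≠ 2) (φ : K →+* ℂ) {m : ℕ} {a : Fin m → ZMod l}
    (ha : a ∈ tuples l m) (hp : IsPaired a) {I : Ideal (𝓞 K)} (hI : I ≠ ⊥) :
    tupleChar φ l a I =
      if l.Coprime (Ideal.absNorm I) then ((Ideal.absNorm I : ℕ) : ℂ) ^ (m / 2) else 0 := by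
  induction I using UniqueFactorizationMonoid.induction_on_prime with
  | h₁ => exact absurd rfl hI
  | h₂ J hJ =>
    rw [Ideal.isUnit_iff.1 hJ, ← Ideal.one_eq_top, map_one, map_one]
    simp
  | h₃ J P hJ hP ih =>
    let v : HeightOneSpectrum (𝓞 K) := ⟨P, Ideal.isPrime_of_prime hP, hP.ne_zero⟩
    have hJ' := ih hJ
    rw [map_mul, hJ', map_mul, show P = v.asIdeal from rfl]
    by_cases hv : (l : 𝓞 K) ∈ v.asIdeal
    · have hnc : ¬ l.Coprime (Ideal.absNorm v.asIdeal) := fun hc =>
        natCast_notMem v.isPrime.ne_top hc hv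
      rw [tupleChar_apply, oneChar_apply, if_neg hnc, zero_mul, zero_mul,
        if_neg fun e => hnc (Nat.coprime_mul_iff_right.1 e).1]
    · rw [(exists_tupleChar_prime hl2 φ hv).1 m a ha hp]
      have hc := coprime_of_notMem hl2 hv
      by_cases hcJ : l.Coprime (Ideal.absNorm J)
      · rw [if_pos hcJ, if_pos (Nat.coprime_mul_iff_right.2 ⟨hc, hcJ⟩), Nat.cast_mul, mul_pow]
      · rw [if_neg hcJ, mul_zero, if_neg fun e => hcJ (Nat.coprime_mul_iff_right.1 e).2]

end FA.FermatTate

end
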