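import Fermat.Agent.FermatTate.Mean

/-!
# The Fermat surfaces

For a prime `l ≥ 3` there are `3 (l - 1) (l - 2)` paired tuples of length four: after the first
entry `x` the partner `-x` stands at one of three places and the other two entries are `y`, `-y`.
-/

set_option autoImplicit false
set_option linter.unusedSectionVars false

noncomputable section

open Finset
open scoped Classical

namespace FA.FermatTate

variable {l : ℕ} [hl : Fact l.Prime]

theorem isPaired_four (hl2 : l ≠ 2) {a : Fin 4 → ZMod l} (ha : a ∈ tuples l 4) :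
    IsPaired a ↔ a 1 = -a 0 ∧ a 3 = -a 2 ∨ a 2 = -a 0 ∧ a 3 = -a 1 ∨ a 3 = -a 0 ∧ a 2 = -a 1 := by
  obtain ⟨ha0, ha1⟩ := mem_tuples.1 ha
  rw [Fin.sum_univ_four] at ha1
  constructor
  · intro h
    have hpos : 0 < (univ.filter fun i => a i = -a 0).card := by
      rw [← h (a 0)]; exact card_pos.2 ⟨0, by simp⟩
    obtain ⟨i, hi⟩ := card_pos.1 hpos
    rw [mem_filter] at hi
    obtain ⟨-, hi⟩ := hi
    fin_cases i
    · have e : (2 : ZMod l) * a 0 = 0 := by
        change a 0 = -a 0 at hi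
        linear_combination hi
      exact absurd e (mul_ne_zero (FA.JacobiST.two_ne_zero_zmod hl2) (ha0 0))
    · change a 1 = -a 0 at hi
      exact Or.inl ⟨hi, by linear_combination ha1 - hi⟩
    · change a 2 = -a 0 at hi
      exact Or.inr (Or.inl ⟨hi, by linear_combination ha1 - hi⟩)
    · change a 3 = -a 0 at hi
      exact Or.inr (Or.inr ⟨hi, by linear_combination ha1 - hi⟩)
  · intro h x
    simp only [card_filter, Fin.sum_univ_four]
    rcases h with ⟨e1, e2⟩ | ⟨e1, e2⟩ | ⟨e1, e2⟩ <;> rw [e1, e2] <;>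
      simp only [neg_eq_iff_eq_neg, neg_neg] <;> ring

/-- The nonzero residues. -/
def nonzeroResidues (l : ℕ) [NeZero l] : Finset (ZMod l) := univ.erase 0

theorem mem_nonzeroResidues {x : ZMod l} : x ∈ nonzeroResidues l ↔ x ≠ 0 := by
  simp [nonzeroResidues]

theorem card_nonzeroResidues : (nonzeroResidues l).card = l - 1 := by
  rw [nonzeroResidues, card_erase_of_mem (mem_univ _), card_univ, ZMod.card]

/-- Partners at the places `0, 1` and `2, 3`. -/
def pairs01 (l : ℕ) [NeZero l] : Finset (Fin 4 → ZMod l) :=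
  (nonzeroResidues l ×ˢ nonzeroResidues l).image fun p => ![p.1, -p.1, p.2, -p.2]

/-- Partners at the places `0, 2` and `1, 3`, and not also at `0, 1`. -/
def pairs02 (l : ℕ) [NeZero l] : Finset (Fin 4 → ZMod l) :=
  ((nonzeroResidues l).sigma fun x => (nonzeroResidues l).erase (-x)).image
    fun p => ![p.1, p.2, -p.1, -p.2]

/-- Partners at the places `0, 3` and `1, 2`, and not also at `0, 1` or `0, 2`. -/
def pairs03 (l : ℕ) [NeZero l] : Finset (Fin 4 → ZMod l) :=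
  ((nonzeroResidues l).sigma fun x => ((nonzeroResidues l).erase (-x)).erase x).image
    fun p => ![p.1, p.2, -p.2, -p.1]

theorem mem_pairs01 {a : Fin 4 → ZMod l} :
    a ∈ pairs01 l ↔ a 0 ≠ 0 ∧ a 2 ≠ 0 ∧ a 1 = -a 0 ∧ a 3 = -a 2 := by
  simp only [pairs01, mem_image, mem_product, mem_nonzeroResidues]
  constructor
  · rintro ⟨⟨x, y⟩, ⟨hx, hy⟩, rfl⟩; exact ⟨hx, hy, rfl, rfl⟩
  · rintro ⟨h0, h2, e1, e3⟩
    exact ⟨(a 0, a 2), ⟨h0, h2⟩, funext fun i => by fin_cases i <;> simp [e1, e3]⟩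

theorem mem_pairs02 {a : Fin 4 → ZMod l} :
    a ∈ pairs02 l ↔ a 0 ≠ 0 ∧ a 1 ≠ 0 ∧ a 1 ≠ -a 0 ∧ a 2 = -a 0 ∧ a 3 = -a 1 := by
  simp only [pairs02, mem_image, mem_sigma, mem_erase, mem_nonzeroResidues]
  constructor
  · rintro ⟨⟨x, y⟩, ⟨hx, hy, hy0⟩, rfl⟩; exact ⟨hx, hy0, hy, rfl, rfl⟩
  · rintro ⟨h0, h1, hn, e2, e3⟩
    exact ⟨⟨a 0, a 1⟩, ⟨h0, hn, h1⟩, funext fun i => by fin_cases i <;> simp [e2, e3]⟩

theorem mem_pairs03 {a : Fin 4 → ZMod l} :
    a ∈ pairs03 l ↔
      a 0 ≠ 0 ∧ a 1 ≠ 0 ∧ a 1 ≠ -a 0 ∧ a 1 ≠ a 0 ∧ a 3 = -a 0 ∧ a 2 = -a 1 := by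
  simp only [pairs03, mem_image, mem_sigma, mem_erase, mem_nonzeroResidues]
  constructor
  · rintro ⟨⟨x, y⟩, ⟨hx, hxy, hy, hy0⟩, rfl⟩; exact ⟨hx, hy0, hy, hxy, rfl, rfl⟩
  · rintro ⟨h0, h1, hn, hne, e3, e2⟩
    exact ⟨⟨a 0, a 1⟩, ⟨h0, hne, hn, h1⟩, funext fun i => by fin_cases i <;> simp [e2, e3]⟩

theorem filter_isPaired_four (hl2 : l ≠ 2) :
    (tuples l 4).filter IsPaired = pairs01 l ∪ pairs02 l ∪ pairs03 l := by
  ext a
  rw [mem_filter, mem_union, mem_union, mem_pairs01, mem_pairs02, mem_pairs03]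
  constructor
  · rintro ⟨ha, hp⟩
    have ha0 := (mem_tuples.1 ha).1
    rcases (isPaired_four hl2 ha).1 hp with h | h | h
    · exact Or.inl (Or.inl ⟨ha0 0, ha0 2, h⟩)
    · by_cases h01 : a 1 = -a 0
      · exact Or.inl (Or.inl ⟨ha0 0, ha0 2, h01, by rw [h.2, h01, h.1]⟩)
      · exact Or.inl (Or.inr ⟨ha0 0, ha0 1, h01, h⟩)
    · by_cases h01 : a 1 = -a 0
      · exact Or.inl (Or.inl ⟨ha0 0, ha0 2, h01, by rw [h.1, h.2, h01, neg_neg]⟩)
      by_cases h02 : a 1 = a 0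
      · exact Or.inl (Or.inr ⟨ha0 0, ha0 1, h01, by rw [h.2, h02], by rw [h.1, h02]⟩)
      · exact Or.inr ⟨ha0 0, ha0 1, h01, h02, h⟩
  · intro h
    have ha : a ∈ tuples l 4 := by
      refine mem_tuples.2 ⟨fun i => ?_, ?_⟩
      · rcases h with (⟨h0, h2, e1, e3⟩ | ⟨h0, h1, -, e2, e3⟩) | ⟨h0, h1, -, -, e3, e2⟩ <;>
          fin_cases i <;> simp [*]
      · rw [Fin.sum_univ_four]
        rcases h with (⟨-, -, e1, e2⟩ | ⟨-, -, -, e1, e2⟩) | ⟨-, -, -, -, e1, e2⟩ <;>
          rw [e1, e2] <;> ring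
    refine ⟨ha, (isPaired_four hl2 ha).2 ?_⟩
    rcases h with (⟨-, -, e⟩ | ⟨-, -, -, e⟩) | ⟨-, -, -, -, e⟩
    exacts [Or.inl e, Or.inr (Or.inl e), Or.inr (Or.inr e)]

theorem card_pairs01 : (pairs01 l).card = (l - 1) * (l - 1) := by
  rw [pairs01, card_image_of_injective _ fun p q e => Prod.ext (congrFun e 0) (congrFun e 2),
    card_product, card_nonzeroResidues]

theorem card_pairs02 : (pairs02 l).card = (l - 1) * (l - 2) := by
  rw [pairs02, card_image_of_injective _ fun p q e => Sigma.ext (congrFun e 0)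
    (heq_of_eq (congrFun e 1)), card_sigma, sum_const_nat (m := l - 2) fun x hx => by
      rw [card_erase_of_mem (by simpa [mem_nonzeroResidues] using hx), card_nonzeroResidues]; omega,
    card_nonzeroResidues]

theorem card_pairs03 (hl2 : l ≠ 2) : (pairs03 l).card = (l - 1) * (l - 3) := by
  rw [pairs03, card_image_of_injective _ fun p q e => Sigma.ext (congrFun e 0)
    (heq_of_eq (congrFun e 1)), card_sigma, sum_const_nat (m := l - 3) fun x hx => by
      rw [mem_nonzeroResidues] at hx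
      have hne : x ≠ -x := fun e => by
        rw [eq_neg_iff_add_eq_zero, ← two_mul, mul_eq_zero] at e
        exact e.elim (FA.JacobiST.two_ne_zero_zmod hl2) hx
      rw [card_erase_of_mem (mem_erase.2 ⟨hne, mem_nonzeroResidues.2 hx⟩),
        card_erase_of_mem (by simpa [mem_nonzeroResidues] using hx), card_nonzeroResidues]
      omega,
    card_nonzeroResidues]

/-- **The paired tuples of a Fermat surface.** -/
theorem rho_one (hl2 : l ≠ 2) : rho l 1 = 3 * (l - 1) * (l - 2) := by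
  show ((tuples l 4).filter IsPaired).card = _
  rw [filter_isPaired_four hl2, card_union_of_disjoint, card_union_of_disjoint, card_pairs01,
    card_pairs02, card_pairs03 hl2]
  · obtain ⟨k, rfl⟩ : ∃ k, l = k + 3 :=
      ⟨l - 3, by have := hl.out.two_le; omega⟩
    simp only [show k + 3 - 1 = k + 2 by omega, show k + 3 - 2 = k + 1 by omega, Nat.add_sub_cancel]
    ring
  · exact disjoint_left.2 fun a h h' => (mem_pairs02.1 h').2.2.1 (mem_pairs01.1 h).2.2.1
  · refine disjoint_union_left.2 ⟨?_, ?_⟩ <;> refine disjoint_left.2 fun a h h' => ?_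
    · exact (mem_pairs03.1 h').2.2.1 (mem_pairs01.1 h).2.2.1
    · obtain ⟨-, -, -, h02, e3, -⟩ := mem_pairs03.1 h'
      exact h02 (neg_injective ((mem_pairs02.1 h).2.2.2.2.symm.trans e3))

end FA.FermatTate

end
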