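import Fermat.Agent.JacobiSatoTate.Degeneracy

/-!
# The Hodge tuples of prime degree

For a prime `l` a tuple of residues `a i` has `∑ (a i s mod l) = m l / 2` for every `s` prime to `l`
exactly if each residue occurs in it as often as its negative (Parry, Shioda); this is the
independence of the dilates of the sawtooth.
-/

set_option autoImplicit false
set_option linter.unusedSectionVars false

noncomputable section

open Finset
open scoped Classical

namespace FA.FermatTate

variable {l : ℕ} [hl : Fact l.Prime] {m : ℕ}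

/-- The tuples of nonzero residues with sum zero. -/
def tuples (l m : ℕ) [NeZero l] : Finset (Fin m → ZMod l) :=
  univ.filter fun a => (∀ i, a i ≠ 0) ∧ ∑ i, a i = 0

theorem mem_tuples [NeZero l] {a : Fin m → ZMod l} :
    a ∈ tuples l m ↔ (∀ i, a i ≠ 0) ∧ ∑ i, a i = 0 := by
  simp [tuples]

/-- Each residue occurs as often as its negative. -/
def IsPaired (a : Fin m → ZMod l) : Prop :=
  ∀ x : ZMod l, (univ.filter fun i => a i = x).card = (univ.filter fun i => a i = -x).card

/-- `∑ (a i s mod l)`. -/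
def residueSum (a : Fin m → ZMod l) (s : ZMod l) : ℕ := ∑ i, (a i * s).val

/-- The tuples with every residue sum `m l / 2`. -/
def IsHodge (a : Fin m → ZMod l) : Prop := ∀ s : ZMod l, s ≠ 0 → 2 * residueSum a s = m * l

theorem val_add_val_neg {x : ZMod l} (hx : x ≠ 0) : x.val + (-x).val = l := by
  rw [ZMod.neg_val, if_neg hx]
  exact Nat.add_sub_cancel' (ZMod.val_lt x).le

theorem residueSum_add_neg {a : Fin m → ZMod l} (ha : ∀ i, a i ≠ 0) {s : ZMod l} (hs : s ≠ 0) :
    residueSum a s + residueSum a (-s) = m * l := by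
  rw [residueSum, residueSum, ← sum_add_distrib, sum_congr rfl fun i _ => show
    (a i * s).val + (a i * -s).val = l by rw [mul_neg, val_add_val_neg (mul_ne_zero (ha i) hs)],
    sum_const, card_univ, Fintype.card_fin, smul_eq_mul]

theorem dvd_residueSum {a : Fin m → ZMod l} (ha : ∑ i, a i = 0) (s : ZMod l) :
    l ∣ residueSum a s := by
  rw [residueSum, ← ZMod.natCast_eq_zero_iff, Nat.cast_sum]
  simp only [ZMod.natCast_val, ZMod.cast_id', id_eq, ← sum_mul, ha, zero_mul]

/-- A sum over the entries by multiplicities. -/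
theorem sum_entries {M : Type*} [AddCommMonoid M] (a : Fin m → ZMod l) (F : ZMod l → M) :
    ∑ i, F (a i) = ∑ x : ZMod l, (univ.filter fun i => a i = x).card • F x := by
  rw [← sum_fiberwise univ a]
  refine sum_congr rfl fun x _ => ?_
  rw [sum_congr rfl fun i hi => by rw [(mem_filter.1 hi).2], sum_const]

theorem IsPaired.isHodge {a : Fin m → ZMod l} (h : IsPaired a) (ha : ∀ i, a i ≠ 0) : IsHodge a := by
  intro s hs
  have e : residueSum a (-s) = residueSum a s := by
    rw [residueSum, residueSum, sum_entries a fun x => (x * -s).val, sum_entries a fun x => (x * s).val]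
    exact Fintype.sum_equiv (Equiv.neg (ZMod l)) _ _ fun x => by
      rw [Equiv.neg_apply, neg_mul, ← mul_neg, h x]
  have := residueSum_add_neg ha hs
  rw [e] at this
  omega

theorem two_mul_val_two_mul (x : ZMod l) :
    2 * ((2 * x).val : ℤ) = 4 * (x.val : ℤ) - (l : ℤ) * (1 - FA.JacobiST.halfSign x) := by
  have h1 := ZMod.val_lt x
  have e : (2 * x).val = 2 * x.val % l := by
    rw [show (2 * x : ZMod l) = ((2 * x.val : ℕ) : ZMod l) by simp, ZMod.val_natCast]
  rw [e, FA.JacobiST.halfSign]
  split_ifs with h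
  · rw [Nat.mod_eq_of_lt h]; push_cast; ring
  · rw [Nat.mod_eq_sub_mod (by omega), Nat.mod_eq_of_lt (by omega), Nat.cast_sub (by omega)]
    push_cast; ring

/-- **No odd combination of the dilates of the sawtooth vanishes.** -/
theorem eq_zero_of_saw (hl2 : l ≠ 2) {d : ZMod l → ℤ} (h0 : d 0 = 0) (hd : ∀ x, d (-x) = -d x)
    (h : ∀ s : ZMod l, s ≠ 0 → ∑ x, d x * ((x * s).val : ℤ) = 0) (a : ZMod l) : d a = 0 := by
  have hsum : ∑ x, d x = 0 := by
    have e : ∑ x, d x = -∑ x, d x := by
      conv_lhs => rw [← Equiv.sum_comp (Equiv.neg (ZMod l))]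
      rw [← sum_neg_distrib]
      exact sum_congr rfl fun x _ => hd x
    omega
  refine FA.JacobiST.eq_zero_of_balanced hl2 h0 hd (fun s hs => ?_) a
  have h2 := h (2 * s) (mul_ne_zero (FA.JacobiST.two_ne_zero_zmod hl2) hs)
  have key : ∑ x, (2 * (d x * ((x * (2 * s)).val : ℤ))) =
      ∑ x, (4 * (d x * ((x * s).val : ℤ)) - (l : ℤ) * d x +
        (l : ℤ) * (d x * FA.JacobiST.halfSign (x * s))) :=
    sum_congr rfl fun x _ => by
      rw [show x * (2 * s) = 2 * (x * s) by ring]
      linear_combination d x * two_mul_val_two_mul (x * s)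
  rw [← mul_sum, h2, sum_add_distrib, sum_sub_distrib, ← mul_sum, ← mul_sum, ← mul_sum, h s hs, hsum,
    mul_zero, mul_zero, mul_zero, sub_zero, zero_add, eq_comm, mul_eq_zero] at key
  exact key.resolve_left (Int.natCast_ne_zero.2 hl.out.ne_zero)

/-- **Parry, Shioda: the Hodge tuples are the paired ones.** -/
theorem isHodge_iff_isPaired (hl2 : l ≠ 2) {a : Fin m → ZMod l} (ha : ∀ i, a i ≠ 0) :
    IsHodge a ↔ IsPaired a := by
  refine ⟨fun h x => ?_, fun h => h.isHodge ha⟩
  let d : ZMod l → ℤ := fun x =>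
    ((univ.filter fun i => a i = x).card : ℤ) - ((univ.filter fun i => a i = -x).card : ℤ)
  have h0 : d 0 = 0 := by simp [d]
  have hd : ∀ x, d (-x) = -d x := fun x => by simp only [d, neg_neg, neg_sub]
  have hs : ∀ s : ZMod l, s ≠ 0 → ∑ x, d x * ((x * s).val : ℤ) = 0 := fun s hs => by
    simp only [d, sub_mul, sum_sub_distrib]
    have e1 : ∑ x : ZMod l, ((univ.filter fun i => a i = x).card : ℤ) * ((x * s).val : ℤ) =
        (residueSum a s : ℤ) := by
      rw [residueSum, Nat.cast_sum, sum_entries a fun x => ((x * s).val : ℤ)]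
      simp only [nsmul_eq_mul]
    have e2 : ∑ x : ZMod l, ((univ.filter fun i => a i = -x).card : ℤ) * ((x * s).val : ℤ) =
        (residueSum a (-s) : ℤ) := by
      rw [residueSum, Nat.cast_sum, sum_entries a fun x => ((x * -s).val : ℤ)]
      simp only [nsmul_eq_mul]
      exact Fintype.sum_equiv (Equiv.neg (ZMod l)) _ _ fun x => by
        rw [Equiv.neg_apply, neg_mul_neg]
    rw [e1, e2]
    have h1 := h s hs
    have h2 := h (-s) (neg_ne_zero.2 hs)
    omega
  have := eq_zero_of_saw hl2 h0 hd hs x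
  simp only [d] at this
  omega

theorem IsPaired.even (hl2 : l ≠ 2) {a : Fin m → ZMod l} (h : IsPaired a) (ha : ∀ i, a i ≠ 0) :
    Even m := by
  have := h.isHodge ha 1 one_ne_zero
  have hodd := hl.out.odd_of_ne_two hl2
  exact (Nat.even_mul.1 ⟨residueSum a 1, by rw [← this, two_mul]⟩).resolve_right
    (Nat.not_even_iff_odd.2 hodd)

end FA.FermatTate

end
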